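import Mathlib
import Fermat.Agent.MUL.Orig.S14.ClassZeta.Defs
import Fermat.Agent.MUL.Orig.S14.AuxChar

/-!
# F4 / GLOB: analytic second inequality with modulus — definitions and interfaces

Owner: helper56 (analytic core, assembly), helper87 (orbit identity `ClassZetaLatticeSumPred`).

The ray class group is never constructed: a "generalised ideal class map" is a map `cls` from the
ideals of `𝓞 E` to a finite abelian group `G`, multiplicative on the ideals prime to the modulus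
`m`, trivial on the principal ideals `(a)` with `a ≡ 1 mod m`, and surjective.
-/

set_option autoImplicit false

open NumberField NumberField.mixedEmbedding NumberField.Units
  NumberField.Units.dirichletUnitTheorem
open scoped nonZeroDivisors Classical

namespace Fermat.Agent.F4Ray

open Fermat.Agent.S14 (czF cutoff)

/-- A generalised ideal class map of modulus `m` (wide sense: no sign conditions). -/
structure RayClassMap (E : Type) [Field E] [NumberField E] (m : Ideal (𝓞 E)) (G : Type)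
    [CommGroup G] (cls : Ideal (𝓞 E) → G) : Prop where
  m_ne_bot : m ≠ ⊥
  mul : ∀ I J : Ideal (𝓞 E), I ⊔ m = ⊤ → J ⊔ m = ⊤ → cls (I * J) = cls I * cls J
  ray : ∀ a : 𝓞 E, a ≠ 0 → a - 1 ∈ m → cls (Ideal.span {a}) = 1
  surj : ∀ g : G, ∃ I : Ideal (𝓞 E), I ≠ ⊥ ∧ I ⊔ m = ⊤ ∧ cls I = g

/-- The weight `f (cls I) * N(I)^(-s)` on the nonzero ideals prime to `m` (zero elsewhere). -/
noncomputable def rayWeight (E : Type) [Field E] [NumberField E] (m : Ideal (𝓞 E)) {G : Type}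
    (cls : Ideal (𝓞 E) → G) (f : G → ℂ) (s : ℝ) (I : Ideal (𝓞 E)) : ℂ :=
  if I ≠ ⊥ ∧ I ⊔ m = ⊤ then f (cls I) * (((Ideal.absNorm I : ℕ) : ℝ) ^ (-s) : ℝ) else 0

/-- `L(s, f ∘ cls) = ∑_{(I, m) = 1} f (cls I) N(I)^(-s)`. -/
noncomputable def rayLVal (E : Type) [Field E] [NumberField E] (m : Ideal (𝓞 E)) {G : Type}
    (cls : Ideal (𝓞 E) → G) (f : G → ℂ) (s : ℝ) : ℂ :=
  ∑' I : Ideal (𝓞 E), rayWeight E m cls f s I

/-- **(RU3')** the orbit identity of `S14.ClassZetaLatticeSum` with a unit-invariant condition `P`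
on the generators: the ideals `I` of the class `c` such that `I * J = (γ)` with `P γ` correspond to
the elements `γ ∈ J` with `P γ`, up to units. -/
def ClassZetaLatticeSumPred : Prop :=
  ∀ (E : Type) [Field E] [NumberField E] (c : ClassGroup (𝓞 E)) (J : (Ideal (𝓞 E))⁰),
    ClassGroup.mk0 J = c⁻¹ → ∀ (P : 𝓞 E → Prop), (∀ (u : (𝓞 E)ˣ) (γ : 𝓞 E), P (u * γ) ↔ P γ) →
    ∀ s : ℝ, 1 < s →
      Summable (fun γ : (J : Ideal (𝓞 E)) =>
        if P (γ : 𝓞 E) then czF E (cutoff E) s (mixedEmbedding E ((γ : 𝓞 E) : E)) else 0) ∧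
      ∑' I : {I : (Ideal (𝓞 E))⁰ // ClassGroup.mk0 I = c ∧
          ∃ γ : 𝓞 E, Ideal.span {γ} = (I : Ideal (𝓞 E)) * (J : Ideal (𝓞 E)) ∧ P γ},
        ((Ideal.absNorm ((I : (Ideal (𝓞 E))⁰) : Ideal (𝓞 E)) : ℕ) : ℝ) ^ (-s) =
      ((Ideal.absNorm (J : Ideal (𝓞 E)) : ℕ) : ℝ) ^ s / (torsionOrder E : ℝ) *
        ∑' γ : (J : Ideal (𝓞 E)),
          if P (γ : 𝓞 E) then czF E (cutoff E) s (mixedEmbedding E ((γ : 𝓞 E) : E)) else 0

/-- **(P4 with modulus)** `L(s, f ∘ cls)` is bounded on `(1, 2]` when `∑ f = 0`. -/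
def RayLBound : Prop :=
  ∀ (E : Type) [Field E] [NumberField E] (m : Ideal (𝓞 E)) (G : Type) [CommGroup G] [Fintype G]
    (cls : Ideal (𝓞 E) → G), RayClassMap E m G cls →
    ∀ f : G → ℂ, ∑ g, f g = 0 →
      ∃ B : ℝ, ∀ s : ℝ, 1 < s → s ≤ 2 → ‖rayLVal E m cls f s‖ ≤ B

/-- **Analytic second inequality with modulus** (wide form): a generalised ideal class map of
`E` which is trivial on the norms from a finite Galois extension `M` has at most `[M : E]`
values. -/
def SecondIneqRay : Prop :=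
  ∀ (E M : Type) [Field E] [NumberField E] [Field M] [NumberField M] [Algebra E M] [IsGalois E M]
    (m : Ideal (𝓞 E)) (G : Type) [CommGroup G] [Fintype G] (cls : Ideal (𝓞 E) → G),
    RayClassMap E m G cls →
    (∀ A : Ideal (𝓞 M), A ≠ ⊥ → Ideal.relNorm (𝓞 E) A ⊔ m = ⊤ →
      cls (Ideal.relNorm (𝓞 E) A) = 1) →
    Fintype.card G ≤ Module.finrank E M

end Fermat.Agent.F4Ray
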